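import Fermat.Agent.H12.Corr
import Fermat.Agent.FF.T3

/-!
# Kummer covers of degree `3`: ramification
-/

set_option autoImplicit false

noncomputable section

namespace Fermat.Agent.NT

open AlgebraicCurve Polynomial Module

section Norm

variable {F F' : Type*} [Field F] [Field F'] [Algebra F F'] [FiniteDimensional F F']

theorem norm_sub_const (hfr : finrank F F' = 3) {u : F'} {a : F} (hu : u ^ 3 = algebraMap F F' a)
    (ha : ∀ b : F, b ^ 3 ≠ a) (c : F) : Algebra.norm F (u - algebraMap F F' c) = a - c ^ 3 := by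
  have hirr := X_pow_sub_C_irreducible_of_prime Nat.prime_three ha
  have hmon : (X ^ 3 - C a : F[X]).Monic := monic_X_pow_sub_C a (by norm_num)
  have hmin : minpoly F u = X ^ 3 - C a := by
    symm
    refine minpoly.eq_of_irreducible_of_monic hirr ?_ hmon
    simp [hu]
  set y := u - algebraMap F F' c with hy
  have hminy : minpoly F y = (X ^ 3 - C a : F[X]).comp (X + C c) := by
    rw [hy, minpoly.sub_algebraMap, hmin]
  have hdeg : (minpoly F y).natDegree = 3 := by
    rw [hminy, natDegree_comp, natDegree_X_pow_sub_C, natDegree_X_add_C]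
  have hint : IsIntegral F y := Algebra.IsIntegral.isIntegral y
  have htop : IntermediateField.adjoin F {y} = ⊤ := by
    rw [Field.primitive_element_iff_minpoly_natDegree_eq, hdeg, hfr]
  have htop' : Algebra.adjoin F {y} = ⊤ := by
    rw [← IntermediateField.adjoin_simple_toSubalgebra_of_isAlgebraic hint.isAlgebraic, htop]
    rfl
  have h := Algebra.PowerBasis.norm_gen_eq_coeff_zero_minpoly (PowerBasis.ofAdjoinEqTop hint htop')
  rw [PowerBasis.ofAdjoinEqTop_gen] at h
  rw [h, PowerBasis.ofAdjoinEqTop_dim, hdeg, hminy, coeff_zero_eq_eval_zero]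
  simp
  ring

end Norm

section Ram

variable {K F F' : Type*} [Field K] [IsAlgClosed K] [Field F] [Field F'] [Algebra K F]
  [Algebra K F'] [FF.FunField K F] [Algebra F F'] [IsScalarTower K F F'] [FiniteDimensional F F']

/-- the value of a unit at a place -/
theorem exists_value (v : Place K F) {a : F} (ha0 : v.ord a = 0) (ha : a ≠ 0) :
    ∃ c : K, c ≠ 0 ∧ (a = algebraMap K F c ∨ 0 < v.ord (a - algebraMap K F c)) := by
  have h1 : v.adicValuation a ≤ 1 := by
    rw [v.adicValuation_le_one_iff]; right; rw [ha0]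
  have h2 := FF.val_spec h1
  have h3 : a = algebraMap K F (FF.val v a) ∨ 0 < v.ord (a - algebraMap K F (FF.val v a)) := by
    rw [show (1 : WithZero (Multiplicative ℤ)) = WithZero.exp 0 from rfl, FF.val_lt_exp_iff] at h2
    rcases h2 with h2 | h2
    · exact Or.inl (sub_eq_zero.mp h2)
    · right; omega
  refine ⟨FF.val v a, ?_, h3⟩
  intro h0
  rw [h0, map_zero, sub_zero] at h3
  rcases h3 with h3 | h3
  · exact ha h3
  · omega

/-- **Kummer covers of degree `3`**: if the order of the radicand at `v` is divisible by `3` then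
there is a place over `v` which is unramified. -/
theorem exists_unram (h : H05.LocalNormFormula K F F') (hdeg : ∀ w : Place K F', w.inertiaDeg F = 1)
    (hfr : finrank F F' = 3) (h3 : (3 : K) ≠ 0) {x : F'} {a : F} (ha0 : a ≠ 0)
    (hx : x ^ 3 = algebraMap F F' a) (ha : ∀ b : F, b ^ 3 ≠ a) (v : Place K F)
    (hv : (3 : ℤ) ∣ v.ord a) :
    ∃ w : Place K F', ∀ z : F, w.ord (algebraMap F F' z) = v.ord z := by
  obtain ⟨S, hS, hsum⟩ := h v
  obtain ⟨π, hπ0, hπ⟩ := H18.exists_ord_eq_one v
  obtain ⟨n, hn⟩ := hv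
  -- normalisation
  set a₀ : F := a * (π ^ n)⁻¹ ^ 3 with ha₀
  have hπn : π ^ n ≠ 0 := zpow_ne_zero _ hπ0
  have ha₀0 : a₀ ≠ 0 := mul_ne_zero ha0 (pow_ne_zero _ (inv_ne_zero hπn))
  have hord : v.ord a₀ = 0 := by
    rw [ha₀, v.ord_mul ha0 (pow_ne_zero _ (inv_ne_zero hπn)), H18.ord_pow, v.ord_inv, v.ord_zpow,
      hπ, hn]
    push_cast
    ring
  set u : F' := x * algebraMap F F' (π ^ n)⁻¹ with hu
  have hu3 : u ^ 3 = algebraMap F F' a₀ := by
    rw [hu, mul_pow, hx, ha₀, map_mul, map_pow]
  have ha₀c : ∀ b : F, b ^ 3 ≠ a₀ := by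
    intro b hb
    refine ha (b * π ^ n) ?_
    rw [mul_pow, hb, ha₀, mul_assoc, ← mul_pow, inv_mul_cancel₀ hπn, one_pow, mul_one]
  obtain ⟨c, hc0, hc⟩ := exists_value v hord ha₀0
  obtain ⟨l, hl⟩ := IsAlgClosed.exists_pow_nat_eq c (n := 3) (by norm_num)
  have hc' : 0 < v.ord (a₀ - algebraMap K F c) := by
    rcases hc with hc | hc
    · exact absurd (by rw [hc, ← hl, map_pow]) (ha₀c (algebraMap K F l))
    · exact hc
  obtain ⟨ω, hω⟩ : ∃ ω : K, ω ^ 2 + ω + 1 = 0 := by
    have hq := IsAlgClosed.exists_root (X ^ 2 + X + 1 : K[X]) (by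
      have : (X ^ 2 + X + 1 : K[X]).degree = 2 := by compute_degree!
      rw [this]; norm_num)
    obtain ⟨ω, hω⟩ := hq
    refine ⟨ω, ?_⟩
    simpa using hω
  have hω1 : ω ≠ 1 := by
    rintro rfl
    apply h3
    linear_combination hω
  have hω3 : ω ^ 3 = 1 := by linear_combination (ω - 1) * hω
  have hl0 : l ≠ 0 := by
    rintro rfl
    apply hc0
    rw [← hl]; norm_num
  -- the norms
  have key : ∀ b : K, b ^ 3 = c → 0 < ∑ w ∈ S, w.ord (u - algebraMap K F' b) := by
    intro b hb
    have h1 : u - algebraMap K F' b ≠ 0 := by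
      intro h0
      have h2 : Algebra.norm F (u - algebraMap F F' (algebraMap K F b)) = 0 := by
        rw [← IsScalarTower.algebraMap_apply, h0, Algebra.norm_zero]
      rw [norm_sub_const hfr hu3 ha₀c, ← map_pow, hb] at h2
      rw [h2] at hc'
      simp at hc'
    have h2 := hsum _ h1
    have h3 : Algebra.norm F (u - algebraMap K F' b) = a₀ - algebraMap K F c := by
      rw [IsScalarTower.algebraMap_apply K F F', norm_sub_const hfr hu3 ha₀c, ← map_pow, hb]
    rw [h3] at h2
    have h4 : ∑ w ∈ S, w.ord (u - algebraMap K F' b) * (w.inertiaDeg F : ℤ) =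
        ∑ w ∈ S, w.ord (u - algebraMap K F' b) := by
      refine Finset.sum_congr rfl fun w _ => ?_
      rw [hdeg w, Nat.cast_one, mul_one]
    rw [← h4, h2]
    exact hc'
  -- ramification indices
  have hram : ∑ w ∈ S, (w.ramificationIndex F : ℤ) = 3 := by
    have h1 : algebraMap F F' π ≠ 0 := (map_ne_zero_iff _ (algebraMap F F').injective).mpr hπ0
    have h2 := hsum _ h1
    rw [Algebra.norm_algebraMap, hfr, H18.ord_pow, hπ] at h2
    have h4 : ∑ w ∈ S, w.ord (algebraMap F F' π) * (w.inertiaDeg F : ℤ) =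
        ∑ w ∈ S, (w.ramificationIndex F : ℤ) := by
      refine Finset.sum_congr rfl fun w hw => ?_
      rw [hdeg w, Nat.cast_one, mul_one, w.ord_restrict, (hS w).1 hw, hπ, mul_one]
    rw [← h4, h2]
    norm_num
  by_contra hcon
  push Not at hcon
  have hge : ∀ w ∈ S, 2 ≤ (w.ramificationIndex F : ℤ) := by
    intro w hw
    have h1 : 0 < w.ramificationIndex F := w.ramificationIndex_pos
    have h2 : w.ramificationIndex F ≠ 1 := by
      intro h2
      obtain ⟨z, hz⟩ := hcon w
      apply hz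
      rw [w.ord_restrict, (hS w).1 hw, h2, Nat.cast_one, one_mul]
    have : 2 ≤ w.ramificationIndex F := by omega
    exact_mod_cast this
  have hcard : S.card ≤ 1 := by
    have h1 : ∑ _w ∈ S, (2 : ℤ) ≤ ∑ w ∈ S, (w.ramificationIndex F : ℤ) := Finset.sum_le_sum hge
    rw [hram, Finset.sum_const, nsmul_eq_mul] at h1
    have : (S.card : ℤ) * 2 ≤ 3 := h1
    omega
  have hne : S.Nonempty := by
    by_contra h0
    rw [Finset.not_nonempty_iff_eq_empty] at h0
    rw [h0, Finset.sum_empty] at hram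
    norm_num at hram
  obtain ⟨w, hw⟩ : ∃ w, S = {w} := Finset.card_eq_one.mp (le_antisymm hcard hne.card_pos)
  have k1 := key l hl
  have k2 := key (ω * l) (by rw [mul_pow, hω3, one_mul, hl])
  rw [hw, Finset.sum_singleton] at k1 k2
  have hdiff : (u - algebraMap K F' l) + -(u - algebraMap K F' (ω * l)) =
      algebraMap K F' ((ω - 1) * l) := by
    rw [sub_mul, one_mul, map_sub]; ring
  have hne' : algebraMap K F' ((ω - 1) * l) ≠ 0 := by
    rw [map_ne_zero_iff _ (algebraMap K F').injective]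
    exact mul_ne_zero (sub_ne_zero.mpr hω1) hl0
  have h5 := H18.le_ord_add w (n := 1) (f := u - algebraMap K F' l)
    (g := -(u - algebraMap K F' (ω * l))) (by rw [hdiff]; exact hne') (Or.inr k1)
    (Or.inr (by rw [H18.ord_neg]; exact k2))
  rw [hdiff, H18.ord_algebraMap] at h5
  omega

end Ram

end Fermat.Agent.NT
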