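import Fermat.Agent.NN.N2

/-!
# Mazur's principle at `2`: the geometric part, from a bound for the orders

`OrdR` is the conclusion of `NN.two_mul_ord` with an arbitrary constant `c`; `n2_core_gen` is the
analogue of `NN.n2_core` at any prime, `r = 2` included.
-/

set_option autoImplicit false
set_option linter.style.haveILetI false
set_option linter.unusedSectionVars false
set_option maxSynthPendingDepth 3

noncomputable section

attribute [-instance] HahnSeries.instModule HahnSeries.instSMul HahnSeries.instDistribMulAction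
  HahnSeries.instSMulZeroClass

attribute [local instance 10000] Fermat.Agent.H29.instLS Fermat.Agent.H29.instIF
  Fermat.Agent.H29.instIF2

namespace Fermat.Agent.NT

open ModularCurve HahnSeries Fermat.Agent.Igusa AlgebraicCurve Fermat.Agent.FF Fermat.Agent.H11Q
  Fermat.Agent.Q Module IntermediateField Fermat.Agent.H11N Fermat.Agent.NN

local notation "kk" => IsLocalRing.ResidueField
local notation "Qb" => AlgebraicClosure ℚ

attribute [local instance] H12.isAlgClosed_kk

section General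

variable {K F F' : Type*} [Field K] [Field F] [Field F'] [Algebra K F] [Algebra K F']

/-- the ramification indices of an extension of degree `d` over an algebraically closed field -/
theorem dvd_mul_ord [HasPrincipalDivisors K F'] (φ : F →ₐ[K] F')
    (hφ : φ.toRingHom.IsIntegral)
    (hFI : FundamentalIdentityAlong K φ hφ) {d : ℕ} (hd : finrankAlong K φ = d)
    (hdeg : ∀ w : Place K F', w.deg = 1) {m c : ℤ} {u : F}
    (v : Place K F) (hvdeg : v.deg = 1) (h : ∀ w : Place K F', m ∣ c * w.ord (φ u)) :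
    m ∣ (d : ℤ) * c * v.ord u := by
  letI := algebraAlong φ
  haveI := isScalarTower_along φ
  haveI := isIntegral_along φ hφ
  haveI : FundamentalIdentity K F F' := hFI
  have h1 := FundamentalIdentity.sum_ramificationIndex_mul_deg (K := K) (F := F) (F' := F') v
  have h3 : (Module.finrank F F' : ℤ) = d := by exact_mod_cast hd
  rw [h3, hvdeg] at h1
  have h4 : (d : ℤ) * v.ord u = ∑ w ∈ v.fiber F', w.ord (algebraMap F F' u) := by
    have h5 : (d : ℤ) * v.ord u = (∑ w ∈ v.fiber F', (w.ramificationIndex F : ℤ) * (w.deg : ℤ)) *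
        v.ord u := by rw [h1]; push_cast; ring
    rw [h5, Finset.sum_mul]
    refine Finset.sum_congr rfl fun w hw => ?_
    rw [w.ord_restrict, (Place.mem_fiber).1 hw, hdeg w]
    push_cast
    ring
  have h6 : (d : ℤ) * c * v.ord u = ∑ w ∈ v.fiber F', c * w.ord (algebraMap F F' u) := by
    rw [← Finset.mul_sum, ← h4]
    ring
  rw [h6]
  exact Finset.dvd_sum fun w _ => h w

end General

section Deg3

variable {k : Type*} [Field k] {M : ℕ} [NeZero M]

instance neZero_three_mul : NeZero (M * 3) := ⟨Nat.mul_ne_zero (NeZero.ne M) three_ne_zero⟩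

theorem finrank_three (h3 : 3 ∣ M) (hM : ((M * 3 : ℕ) : k) ≠ 0) :
    finrankAlong k (Q.incl k M 3) = 3 := by
  have hM' : (M : k) ≠ 0 := by
    intro h0; apply hM; push_cast; rw [h0, zero_mul]
  apply Igusa.finrankAlong_inclusion
  have h1 := IntermediateField.relrank_mul_relrank
    (full_degeneracyC_le k (one_dvd M)) (full_degeneracyC_le k (dvd_mul_right M 3))
  rw [relrank_full M hM', relrank_full (M * 3) hM,
    dedekindPsi_mul_prime Nat.prime_three (NeZero.ne M), if_pos h3, Nat.cast_mul] at h1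
  have h3 : (dedekindPsi M : Cardinal) ≠ 0 := by
    exact_mod_cast (dedekindPsi_pos (NeZero.ne M)).ne'
  rw [← Nat.cast_mul] at h1
  rcases lt_or_ge ((modularFunctionFieldFullC k M).relrank (modularFunctionFieldFullC k (M * 3)))
    Cardinal.aleph0 with h5 | h5
  · obtain ⟨n, hn⟩ := Cardinal.lt_aleph0.1 h5
    rw [hn, ← Nat.cast_mul, Nat.cast_inj] at h1
    rw [hn, Nat.eq_of_mul_eq_mul_left (dedekindPsi_pos (NeZero.ne M)) h1]
  · have h6 := h5.trans (Cardinal.le_mul_left h3)
    rw [h1] at h6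
    exact absurd h6 (not_le.2 Cardinal.natCast_lt_aleph0)

end Deg3

variable {M r : ℕ} [NeZero M] [hr : Fact r.Prime] {A : ValuationSubring Qb} {m : ℕ}

/-- the divisibility of the orders of the reductions by `m`, up to the factor `c` -/
def OrdR (hrM : Nat.Coprime r M) (A : ValuationSubring Qb) (m : ℕ) (c : ℤ) : Prop :=
  ∀ {x : JZero (M * r)} {f : modularFunctionFieldBar (M * r)}, H05.Kum m x f → IFix A f →
    ∀ {φ : Fin 2 → modularFunctionFieldFullC (kk A) M} {n : ℤ},
    (∀ j, HasVal (alData M r hrM) A (modularFunctionFieldFullC (kk A) M) j f n (φ j)) →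
    ∀ (j : Fin 2) (v : Place (kk A) (modularFunctionFieldFullC (kk A) M)),
      (m : ℤ) ∣ c * v.ord (φ j)

/-- the node relation gives the divisibility of the orders -/
theorem ordR_of_nodeRel (hrM : Nat.Coprime r M) (hA : A.LiesOverPrime r) (hm : 0 < m)
    {T : Divisor (kk A) (modularFunctionFieldFullC (kk A) M)} (hT : NodeRel hrM A T) :
    OrdR hrM A m 1 := by
  intro x f hf hI φ n hval j v
  have h := hT hm (f := f) hf.ne_zero (ratS_of_ifix hrM hA hI) hf.dvd (n := fun _ => n)
    (φ := φ) hval v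
  simp only [sub_self, zero_mul, sub_zero, add_zero] at h
  rw [one_mul]
  rcases fin2_cases j with rfl | rfl
  · exact h.1
  · exact h.2

/-- the descent of the divisibility of the orders from level `3 M` to level `M`, `3 ∣ M` -/
theorem ordR_three (hrM : Nat.Coprime r M) (h3 : 3 ∣ M) (hrM' : Nat.Coprime r (M * 3))
    (hA : A.LiesOverPrime r) {c : ℤ}
    (hO : OrdR hrM' A m c) : OrdR hrM A m (3 * c) := by
  intro x f hf hI φ n hval j v
  have hMk : ((M * 3 : ℕ) : kk A) ≠ 0 := Q.natCast_residue_ne_zero hr.out hA hrM'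
  have hMk' : (M : kk A) ≠ 0 := Q.natCast_residue_ne_zero hr.out hA hrM
  have hdvd : M * r ∣ M * 3 * r := ⟨3, by ring⟩
  haveI : Fact (Nat.Prime 3) := ⟨Nat.prime_three⟩
  have hkum := kum_pullN (N := M * r) (N' := M * 3 * r) (ℓ := 3) (by ring) hdvd hf
  have key := fun w => hO (f := incN hdvd f) hkum (ifix_incN hdvd hI) (n := n)
    (φ := fun j => Q.incl (kk A) M 3 (φ j))
    (fun j => hasVal_incN hrM hrM' (dvd_mul_right M 3) hdvd (Q.coe_incl (kk A) M 3 (φ j)) (hval j))
    j w
  haveI : SepFF (kk A) (modularFunctionFieldFullC (kk A) (M * 3)) := sepFF_full hMk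
  haveI : SepFF (kk A) (modularFunctionFieldFullC (kk A) M) := sepFF_full hMk'
  haveI : HasPrincipalDivisors (kk A) (modularFunctionFieldFullC (kk A) (M * 3)) :=
    SepFF.hasPrincipalDivisors
  exact dvd_mul_ord (Q.incl (kk A) M 3) (H12.integral_alphaC (kk A) M 3)
    (H12.fi_alphaC hMk) (d := 3) (finrank_three h3 hMk) (fun w => SepFF.deg_eq_one w) v
    (SepFF.deg_eq_one v) key

/-- **The geometric part of Mazur's principle**, with the constant `c`. -/
theorem n2_core_gen (hrM : Nat.Coprime r M) (h23 : 2 ∣ M ∨ 3 ∣ M)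
    (hA : A.LiesOverPrime r) {c : ℤ} (hO : OrdR hrM A m c) (hm : m ≠ 0) {x : JZero (M * r)}
    (hx : m • x = 0)
    (hI : ∀ σ ∈ A.inertiaSubgroupIn ℚ, σ • x = x) {l : ℕ} [hl : Fact l.Prime]
    (hlN : ¬ l ∣ M * r) :
    ∃ u : Fin 2 → modularFunctionFieldFullC (kk A) M,
      RedK A M r m (heckeOperatorBar (M * r) ⟨l, hl.out⟩ x - (l + 1) • x) (u 0) ∧
      RedK A M r m (wS M r hrM • (heckeOperatorBar (M * r) ⟨l, hl.out⟩ x - (l + 1) • x)) (u 1) ∧
      ∀ j (v : Place (kk A) (modularFunctionFieldFullC (kk A) M)), (m : ℤ) ∣ c * v.ord (u j) := by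
  have hrQ : (r : Qb) ≠ 0 := by exact_mod_cast hr.out.ne_zero
  obtain ⟨f, hf, hfI⟩ := exists_kumI hm hx hI
  obtain ⟨lp⟩ := H11Q.hasPacks hr.out hA M hrM h23
  have hrat := ratS_of_ifix hrM hA hfI
  choose n φ hval using fun j => exists_hasVal (inertData hrM hA) (redHyp hrM hA) lp
    (g := f) hf.ne_zero hrat j
  have hK : H05.Kum m (heckeOperatorBar (M * r) ⟨l, hl.out⟩ x - (l + 1) • x)
      (nmF l f * (f⁻¹) ^ (l + 1)) := by
    have h1 := (kum_hecke (l := l) hf).mul (kum_nsmul hf.inv (l + 1))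
    rw [smul_neg, ← sub_eq_add_neg] at h1
    exact h1
  set F : modularFunctionFieldBar (M * r) := nmF l f * (f⁻¹) ^ (l + 1) with hF
  have hFI : IFix A F := (hfI.nmF).mul (hfI.inv.pow _)
  have hFval : ∀ j, HasVal (alData M r hrM) A (modularFunctionFieldFullC (kk A) M) j F 0
      (nmC (kk A) M l (φ j) * ((φ j)⁻¹) ^ (l + 1)) := by
    intro j
    have h1 := (hasVal_nmF hA hrM hlN (hval j)).mul hrQ (((hval j).inv).pow hrQ (l + 1))
    have h3 : ((l : ℤ) + 1) * n j + ((l + 1 : ℕ) : ℤ) * (-n j) = 0 := by push_cast; ring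
    rw [h3] at h1
    exact h1
  refine ⟨fun j => nmC (kk A) M l (φ j) * ((φ j)⁻¹) ^ (l + 1), ?_, ?_, fun j v =>
    hO hK hFI hFval j v⟩
  · refine ⟨(hFval 0).1, F, (r : Qb) ^ (-(0 : ℤ)), hK, zpow_ne_zero _ hrQ, ?_⟩
    rw [← zsmul_eq_C, ← al_e0 hrM]
    exact (hFval 0).2
  · refine ⟨(hFval 1).1, wBar M r hrM F, (r : Qb) ^ (-(0 : ℤ)), ?_, zpow_ne_zero _ hrQ, ?_⟩
    · exact hK.smul (wS M r hrM)
    · rw [← zsmul_eq_C, ← al_e1 hrM]
      exact (hFval 1).2

end Fermat.Agent.NT
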