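import Fermat.Agent.Igusa.HauptField
import Fermat.Agent.H12.Main

/-!
# The hauptmoduln of levels `3` and `9` in characteristic `2`
-/

set_option autoImplicit false
set_option linter.style.haveILetI false
set_option linter.unusedSectionVars false
set_option maxSynthPendingDepth 3

noncomputable section

attribute [-instance] HahnSeries.instModule HahnSeries.instSMul HahnSeries.instDistribMulAction
  HahnSeries.instSMulZeroClass

attribute [local instance 10000] Fermat.Agent.H29.instLS Fermat.Agent.H29.instIF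
  Fermat.Agent.H29.instIF2

namespace Fermat.Agent.NT

open ModularCurve HahnSeries Fermat.Agent.Igusa AlgebraicCurve Module IntermediateField

section Q

variable (k : Type*) [Field k]

/-- the hauptmodul of level `3` -/
def tt : LaurentSeries k := coeffMap (Int.castRingHom k) H29.f3

/-- the hauptmodul of level `9` -/
def yy : LaurentSeries k := coeffMap (Int.castRingHom k) t9

theorem yy_eq : yy k = H9.tq k := rfl

theorem mn_tt : Mn (tt k) (-1) := mn_f3.coeffMap _

theorem mn_yy : Mn (yy k) (-1) := mn_t9.coeffMap _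

theorem tt_ne : tt k ≠ 0 := (mn_tt k).ne_zero

theorem yy_ne : yy k ≠ 0 := (mn_yy k).ne_zero

theorem tt_add_ne : tt k + 1 ≠ 0 := by
  have : Mn (tt k + 1) (-1) := (mn_tt k).add_hi (by
    have := Hi.natCast (R := k) 1 (n := -1) (by norm_num)
    rwa [Nat.cast_one] at this)
  exact this.ne_zero

variable [CharP k 2]

theorem two_eq : (2 : LaurentSeries k) = 0 := by
  have h : (2 : k) = 0 := by
    have := CharP.cast_eq_zero k 2
    exact_mod_cast this
  have h1 : (2 : LaurentSeries k) = algebraMap k (LaurentSeries k) 2 := by rw [map_ofNat]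
  rw [h1, h, map_zero]

theorem tt_j : jqModC k * tt k ^ 3 = (tt k + 1) ^ 4 := by
  have h := congrArg (coeffMap (Int.castRingHom k)) H29.f3_j
  rw [map_mul, map_mul, map_pow, map_pow, map_add, map_add, map_ofNat, map_ofNat] at h
  have hj : coeffMap (Int.castRingHom k) (jqModC ℤ) = jqModC k := by
    have := coeffMap_jd (Int.castRingHom k) 1
    rwa [jd_one, jd_one] at this
  rw [hj] at h
  change jqModC k * tt k ^ 3 = (tt k + 27) * (tt k + 243) ^ 3 at h
  have h2 := two_eq k
  have e1 : (27 : LaurentSeries k) = 1 := by linear_combination 13 * h2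
  have e2 : (243 : LaurentSeries k) = 1 := by linear_combination 121 * h2
  rw [h, e1, e2]
  ring

theorem tt_j3 : jd k 3 * tt k = (tt k + 1) ^ 4 := by
  have h := congrArg (coeffMap (Int.castRingHom k)) H29.f3_jr
  rw [map_mul, map_mul, map_pow, map_add, map_add, map_ofNat, map_ofNat] at h
  have hj : coeffMap (Int.castRingHom k) (qExpand ℤ 3 (jqModC ℤ)) = jd k 3 :=
    coeffMap_jd (Int.castRingHom k) 3
  rw [hj] at h
  change jd k 3 * tt k = (tt k + 27) * (tt k + 3) ^ 3 at h
  have h2 := two_eq k
  have e1 : (27 : LaurentSeries k) = 1 := by linear_combination 13 * h2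
  have e2 : (3 : LaurentSeries k) = 1 := by linear_combination h2
  rw [h, e1, e2]
  ring

theorem tt_u : tt k * (yy k ^ 2 + yy k + 1) = yy k ^ 3 := by
  have h := congrArg (coeffMap (Int.castRingHom k)) t9_u
  rw [map_mul, map_add, map_add, map_mul, map_pow, map_pow, map_ofNat, map_ofNat] at h
  change tt k * (yy k ^ 2 + 9 * yy k + 27) = yy k ^ 3 at h
  have h2 := two_eq k
  rw [← h]
  linear_combination (-tt k * (4 * yy k + 13)) * h2

theorem tt_v : yy k * (yy k ^ 2 + yy k + 1) = qExpand k 3 (tt k) := by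
  have h := congrArg (coeffMap (Int.castRingHom k)) t9_v
  rw [map_mul, map_add, map_add, map_mul, map_pow, map_ofNat, map_ofNat, v3,
    coeffMap_qExpand] at h
  change yy k * (yy k ^ 2 + 9 * yy k + 27) = qExpand k 3 (tt k) at h
  have h2 := two_eq k
  rw [← h]
  linear_combination (-yy k * (4 * yy k + 13)) * h2

/-- the Kummer generator for `q ↦ q ^ 3` -/
theorem kum_beta : (yy k + 1) ^ 3 = qExpand k 3 (tt k + 1) := by
  rw [map_add, map_one, ← tt_v]
  have h2 := two_eq k
  linear_combination (yy k ^ 2 + yy k) * h2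

/-- the Kummer generator for the inclusion -/
theorem kum_alpha : ((yy k + 1) / yy k) ^ 3 = (tt k + 1) / tt k := by
  have h2 := two_eq k
  have h3 := tt_u k
  have hy := yy_ne k
  have ht := tt_ne k
  rw [div_pow, div_eq_div_iff (pow_ne_zero _ hy) ht, ← h3]
  linear_combination (tt k * (yy k ^ 2 + yy k)) * h2 - tt k * h3

theorem jq_ne : jqModC k ≠ 0 := by
  intro h
  have := tt_j k
  rw [h, zero_mul] at this
  exact pow_ne_zero 4 (tt_add_ne k) this.symm

/-- `t₃` in terms of `j(q)` and `j(q³)` -/
theorem tt_eq : tt k = ((jd k 3 / jqModC k) ^ 2 + 1) / (jqModC k * (jd k 3 / jqModC k)) := by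
  have hj := jq_ne k
  have ht := tt_ne k
  have h1 := tt_j k
  have h2 := tt_j3 k
  have h3 : jd k 3 / jqModC k = tt k ^ 2 := by
    rw [div_eq_iff hj]
    apply mul_right_cancel₀ ht
    rw [h2, ← h1]
    ring
  rw [h3, eq_div_iff (mul_ne_zero hj (pow_ne_zero 2 ht))]
  have h4 : tt k * (jqModC k * tt k ^ 2) = (tt k + 1) ^ 4 := by rw [← h1]; ring
  rw [h4]
  linear_combination (2 * tt k ^ 3 + 3 * tt k ^ 2 + 2 * tt k) * two_eq k

theorem tt_mem (A : IntermediateField k (LaurentSeries k)) (h1 : jqModC k ∈ A)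
    (h3 : jd k 3 ∈ A) : tt k ∈ A := by
  rw [tt_eq]
  exact div_mem (add_mem (pow_mem (div_mem h3 h1) 2) (one_mem _)) (mul_mem h1 (div_mem h3 h1))

end Q

end Fermat.Agent.NT
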